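import Fermat.Prelude.Def_AlgebraicCurve_Correspondence
import Fermat.Agent.S29.H571.Equivariant

/-!
# S37-TRANSFER, abstract layer (helper878): pull-back of divisor classes along `φ : F →ₐ[K] F'`

Everything is stated in the Prelude's "Along" style (`algebraAlong φ`), so that it can be
applied to the inclusions `F_N ⊂ F_M` of modular function fields, which carry no global
`Algebra` instance.

* `pic0PullbackAlong φ hφ hFI : Pic0 K F →+ Pic0 K F'` — the Prelude `Pic0.pullbackHom` along `φ`.
* (T1) `pushforwardAlong_pullbackAlong` : `φ_* φ^* D = [F' : F] • D` on divisors, from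
  `SumRamInertiaAlong` (= Prelude class `SumRamificationInertia` along `φ`);
  `finrank_nsmul_eq_zero_of_pic0PullbackAlong_eq_zero` : `φ^* x = 0 → [F' : F] • x = 0` on `Pic0`
  (uses the norm formula along `φ`);
  `eq_zero_of_pic0PullbackAlong_eq_zero` : `φ^*` is injective on torsion prime to `[F' : F]`.
* (T2) `pic0PullbackAlong_smul` : `φ^* (g • x) = g' • φ^* x` if `g, g'` intertwine along `φ`.
-/

set_option autoImplicit false
set_option linter.style.haveILetI false

noncomputable section

namespace Fermat.Agent.S37.H878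

open AlgebraicCurve

variable {K F F' : Type*} [Field K] [Field F] [Field F'] [Algebra K F] [Algebra K F']

section Defs

variable [HasPrincipalDivisors K F']

variable (K) in
/-- The Prelude class `SumRamificationInertia` (`∑_{w ∣ v} e(w|v) f(w|v) = [F' : F]`)
along an algebra homomorphism `φ`. -/
def SumRamInertiaAlong (φ : F →ₐ[K] F') (hφ : φ.toRingHom.IsIntegral) : Prop :=
  letI := algebraAlong φ
  haveI := isScalarTower_along φ
  haveI := isIntegral_along φ hφ
  SumRamificationInertia K F F'

theorem fundamentalIdentityAlong_of_sumRamInertiaAlong (φ : F →ₐ[K] F')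
    (hφ : φ.toRingHom.IsIntegral) (hS : SumRamInertiaAlong K φ hφ) :
    FundamentalIdentityAlong K φ hφ := by
  letI := algebraAlong φ
  haveI := isScalarTower_along φ
  haveI := isIntegral_along φ hφ
  haveI : SumRamificationInertia K F F' := hS
  exact (inferInstance : FundamentalIdentity K F F')

/-- Pull-back of divisor classes of degree zero along `φ`. -/
def pic0PullbackAlong (φ : F →ₐ[K] F') (hφ : φ.toRingHom.IsIntegral)
    (hFI : FundamentalIdentityAlong K φ hφ) : Pic0 K F →+ Pic0 K F' :=
  letI := algebraAlong φ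
  haveI := isScalarTower_along φ
  haveI := isIntegral_along φ hφ
  haveI : FundamentalIdentity K F F' := hFI
  Pic0.pullbackHom F'

/-- Pull-back of divisors of degree zero along `φ`. -/
def degZeroPullbackAlong (φ : F →ₐ[K] F') (hφ : φ.toRingHom.IsIntegral)
    (hFI : FundamentalIdentityAlong K φ hφ) :
    Divisor.degZero (K := K) (F := F) →+ Divisor.degZero (K := K) (F := F') :=
  ((Divisor.pullbackAlong φ hφ).domRestrict (Divisor.degZero (K := K) (F := F))).codRestrict _
    fun D => Divisor.pullbackAlong_mem_degZero φ hφ hFI D.2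

@[simp]
theorem coe_degZeroPullbackAlong (φ : F →ₐ[K] F') (hφ : φ.toRingHom.IsIntegral)
    (hFI : FundamentalIdentityAlong K φ hφ) (D : Divisor.degZero (K := K) (F := F)) :
    (degZeroPullbackAlong φ hφ hFI D : Divisor K F') = Divisor.pullbackAlong φ hφ (D : Divisor K F) :=
  rfl

theorem pic0PullbackAlong_mk (φ : F →ₐ[K] F') (hφ : φ.toRingHom.IsIntegral)
    (hFI : FundamentalIdentityAlong K φ hφ) (D : Divisor.degZero (K := K) (F := F)) :
    pic0PullbackAlong φ hφ hFI (Pic0.mk D) = Pic0.mk (degZeroPullbackAlong φ hφ hFI D) :=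
  rfl

end Defs

section Pic0Basics

theorem pic0_mk_eq_zero_iff (D : Divisor.degZero (K := K) (F := F)) :
    Pic0.mk D = 0 ↔ (D : Divisor K F) ∈ Divisor.principal (K := K) (F := F) := by
  rw [Pic0.mk, QuotientAddGroup.eq_zero_iff, AddSubgroup.mem_addSubgroupOf]

theorem pic0_mk_nsmul (n : ℕ) (D : Divisor.degZero (K := K) (F := F)) :
    Pic0.mk (n • D) = n • Pic0.mk D :=
  rfl

end Pic0Basics

section T1

variable [HasPrincipalDivisors K F']
variable (φ : F →ₐ[K] F') (hφ : φ.toRingHom.IsIntegral)

/-- **(T1), divisor level**: `φ_* φ^* D = [F' : F] • D`. -/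
theorem pushforwardAlong_pullbackAlong (hS : SumRamInertiaAlong K φ hφ) (D : Divisor K F) :
    Divisor.pushforwardAlong φ hφ (Divisor.pullbackAlong φ hφ D) = finrankAlong K φ • D := by
  letI := algebraAlong φ
  haveI := isScalarTower_along φ
  haveI := isIntegral_along φ hφ
  haveI : SumRamificationInertia K F F' := hS
  show Divisor.pushforward F (Divisor.pullback F' D) = Module.finrank F F' • D
  induction D using Finsupp.induction with
  | zero => simp
  | single_add v n D _ _ ih =>
    rw [map_add, map_add, ih, smul_add]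
    congr 1
    rw [Divisor.pullback_single, map_sum]
    have h1 : ∀ w ∈ v.fiber F',
        Divisor.pushforward F (Finsupp.single w (n * (w.ramificationIndex F : ℤ)))
          = Finsupp.single v
              (n * ((w.ramificationIndex F : ℤ) * (w.inertiaDeg F : ℤ))) := by
      intro w hw
      rw [Divisor.pushforward_single, Place.mem_fiber.mp hw, mul_assoc]
    rw [Finset.sum_congr rfl h1, ← Finsupp.single_finsetSum, ← Finset.mul_sum,
      SumRamificationInertia.sum_ramificationIndex_mul_inertiaDeg (K := K) (F := F) (F' := F') v,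
      Finsupp.smul_single, nsmul_eq_mul, mul_comm]

/-- **(T1), class level**: a class killed by `φ^*` is killed by `[F' : F]`. -/
theorem finrank_nsmul_eq_zero_of_pic0PullbackAlong_eq_zero
    (hS : SumRamInertiaAlong K φ hφ) (hFI : FundamentalIdentityAlong K φ hφ)
    (hfin : FiniteAlong K φ) (hN : NormFormulaAlong K φ hfin) (x : Pic0 K F)
    (hx : pic0PullbackAlong φ hφ hFI x = 0) : finrankAlong K φ • x = 0 := by
  obtain ⟨D, rfl⟩ := Pic0.mk_surjective x
  rw [pic0PullbackAlong_mk, pic0_mk_eq_zero_iff, coe_degZeroPullbackAlong] at hx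
  have h2 := Divisor.isPrincipal_pushforwardAlong φ hφ hfin hN hx
  rw [pushforwardAlong_pullbackAlong φ hφ hS] at h2
  rw [← pic0_mk_nsmul, pic0_mk_eq_zero_iff]
  exact h2

/-- **(T1), torsion form**: if `[F' : F]` is a power of `ℓ`, then `φ^*` is injective on the
torsion of order prime to `ℓ`. -/
theorem eq_zero_of_pic0PullbackAlong_eq_zero
    (hS : SumRamInertiaAlong K φ hφ) (hFI : FundamentalIdentityAlong K φ hφ)
    (hfin : FiniteAlong K φ) (hN : NormFormulaAlong K φ hfin)
    {ℓ k : ℕ} (hdeg : finrankAlong K φ = ℓ ^ k)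
    (m : ℕ) (hm : m.Coprime ℓ) (x : Pic0 K F) (hmx : m • x = 0)
    (hx : pic0PullbackAlong φ hφ hFI x = 0) : x = 0 := by
  have h1 := finrank_nsmul_eq_zero_of_pic0PullbackAlong_eq_zero φ hφ hS hFI hfin hN x hx
  rw [hdeg] at h1
  have hcop : Nat.Coprime m (ℓ ^ k) := Nat.Coprime.pow_right k hm
  have h3 : (Nat.gcd m (ℓ ^ k)) • x = 0 := by
    have hb := Nat.gcd_eq_gcd_ab m (ℓ ^ k)
    have : ((Nat.gcd m (ℓ ^ k) : ℕ) : ℤ) • x = 0 := by
      rw [hb, add_zsmul, mul_comm (m : ℤ), mul_zsmul, natCast_zsmul, hmx, smul_zero, zero_add,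
        mul_comm ((ℓ ^ k : ℕ) : ℤ), mul_zsmul, natCast_zsmul, h1, smul_zero]
    exact_mod_cast this
  rwa [hcop.gcd_eq_one, one_smul] at h3

end T1

section T2

variable [HasPrincipalDivisors K F']
variable (φ : F →ₐ[K] F') (hφ : φ.toRingHom.IsIntegral)
  {g : SemilinearAut K F} {g' : SemilinearAut K F'}

/-- **(T2)**: pull-back of divisor classes commutes with intertwining semilinear
automorphisms. -/
theorem pic0PullbackAlong_smul (hFI : FundamentalIdentityAlong K φ hφ)
    (h : SemilinearAut.IntertwinesAlong (φ : F →+* F') g g') (x : Pic0 K F) :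
    pic0PullbackAlong φ hφ hFI (g • x) = g' • pic0PullbackAlong φ hφ hFI x := by
  obtain ⟨D, rfl⟩ := Pic0.mk_surjective x
  rw [SemilinearAut.pic0_smul_mk, pic0PullbackAlong_mk, pic0PullbackAlong_mk,
    SemilinearAut.pic0_smul_mk]
  refine congrArg Pic0.mk (Subtype.ext ?_)
  rw [coe_degZeroPullbackAlong, SemilinearAut.coe_degZeroSMulHom,
    SemilinearAut.coe_degZeroSMulHom, coe_degZeroPullbackAlong]
  exact Fermat.Agent.S29.H571.pullbackAlong_smul φ hφ h (D : Divisor K F)

end T2

end Fermat.Agent.S37.H878
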