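import Fermat.Agent.S37.H878.TransferLevel
import Fermat.Agent.S37.Core.Assemble

/-!
# S37-TRANSFER, final assembly (helper878)

For `ℓ ∈ {2, 3}` the geometric pieces of the row (`Core.PlaceRed`, the conclusion of S18) are only
available at an auxiliary level `M` (`M = 2N` for `ℓ = 3`, `M = 3N` for `ℓ = 2`).  This file
transports them to level `N` along the level pull-back `π^* = levelPullback : J₀(N) → J₀(M)`.

* `HeckeLevelCompat N M h ℓ` : **(T3)** `T_ℓ^M ∘ π^* = π^* ∘ T_ℓ^N` (the only hypothesis left;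
  proved abstractly by helper699 / helper818, modular instantiation by helper699);
* `RawWeakRed N A ℓ σ₀ red` : weak reduction data in terms of the raw Prelude operator
  `heckeOperatorAlong` (no Hecke-module structure, so it makes sense at every level);
* `rawWeakRed_of_placeRed` : `Core.PlaceRed` + S18 ⟹ `RawWeakRed` (HIA from `Lib/FF398`);
* `RawWeakRed.transfer` : `RawWeakRed M … red ⟹ RawWeakRed N … (red ∘ π^*)` from (T1), (T2), (T3);
* `RawWeakRed.isWeakRed` : `RawWeakRed N` ⟹ `Core.IsWeakRed` (uses `HeckeOperatorsCommuteBar N`);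
* `result_of_pieces_transfer` : the frozen statement S37 from pieces at auxiliary levels;
* `result_of_pieces_six` : the same with the explicit levels `N`, `2N`, `3N`.
-/

set_option autoImplicit false
set_option linter.style.haveILetI false
set_option linter.unusedSectionVars false
set_option synthInstance.maxHeartbeats 400000

noncomputable section

namespace Fermat.Agent.S37.H878

open AlgebraicCurve ModularCurve ValuationSubring
open Fermat.Agent.S37.H99 Fermat.Agent.S37.Core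

section Raw

/-- **(T3)** Hecke compatibility of the level pull-back: `T_ℓ^M ∘ π^* = π^* ∘ T_ℓ^N`. -/
def HeckeLevelCompat (N M : ℕ) [NeZero N] [NeZero M] (h : N ∣ M) (ℓ : ℕ) [NeZero ℓ] : Prop :=
  ∀ x : JZero N,
    heckeOperatorAlong (AlgebraicClosure ℚ) M ℓ (levelPullback h x)
      = levelPullback h (heckeOperatorAlong (AlgebraicClosure ℚ) N ℓ x)

/-- Weak reduction data at `(A, ℓ)` relative to one Frobenius element `σ₀`, in terms of the raw
operator `heckeOperatorAlong` (no commutativity hypothesis needed to state it). -/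
structure RawWeakRed (N : ℕ) [NeZero N] (A : ValuationSubring (AlgebraicClosure ℚ)) (ℓ : ℕ)
    [NeZero ℓ] (σ₀ : AlgebraicClosure ℚ ≃ₐ[ℚ] AlgebraicClosure ℚ)
    {Y : Type*} [AddCommGroup Y] (red : JZero N →+ Y) : Prop where
  inertia : ∀ τ ∈ A.inertiaSubgroupIn ℚ, ∀ x : JZero N, red (τ • x) = red x
  inj_torsion : ∀ m : ℕ, ¬ ℓ ∣ m → ∀ x : JZero N, m • x = 0 → red x = 0 → x = 0
  relation : ∀ x : JZero N,
    red (σ₀ • σ₀ • x - heckeOperatorAlong (AlgebraicClosure ℚ) N ℓ (σ₀ • x) + ℓ • x) = 0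

variable {N M : ℕ} [NeZero N] [NeZero M] {A : ValuationSubring (AlgebraicClosure ℚ)} {ℓ : ℕ}
  [NeZero ℓ] {σ₀ : AlgebraicClosure ℚ ≃ₐ[ℚ] AlgebraicClosure ℚ}

/-- The pieces of the row at one level give raw weak reduction data at that level. -/
theorem rawWeakRed_of_placeRed (D : PlaceRed N A ℓ σ₀) (hS18 : InjTorsionModL N ℓ A) :
    RawWeakRed N A ℓ σ₀ D.red where
  inertia := fun _ hτ x => D.red_inertia hτ x
  inj_torsion := fun _ hm _ hx h0 => D.red_inj_torsion hS18 hm hx h0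
  relation := fun x => D.red_relation (Fermat.Agent.Lib.FF398.heckeInputsAlong N ℓ) x

/-- **TRANSFER.** Raw weak reduction data at level `M` give raw weak reduction data at level
`N ∣ M`, if `[F_M : F_N]` is a power of `ℓ` and `T_ℓ` commutes with the level pull-back. -/
theorem RawWeakRed.transfer (h : N ∣ M) (hℓ : ℓ.Prime) {k : ℕ}
    (hdeg : finrankAlong (AlgebraicClosure ℚ) (levelIncl h) = ℓ ^ k)
    (hT3 : HeckeLevelCompat N M h ℓ)
    {Y : Type*} [AddCommGroup Y] {red : JZero M →+ Y} (R : RawWeakRed M A ℓ σ₀ red) :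
    RawWeakRed N A ℓ σ₀ (red.comp (levelPullback h)) where
  inertia := by
    intro τ hτ x
    rw [AddMonoidHom.comp_apply, AddMonoidHom.comp_apply, levelPullback_smul,
      R.inertia τ hτ]
  inj_torsion := by
    intro m hm x hmx h0
    rw [AddMonoidHom.comp_apply] at h0
    have h1 : m • levelPullback h x = 0 := by rw [← map_nsmul, hmx, map_zero]
    have h2 : levelPullback h x = 0 := R.inj_torsion m hm _ h1 h0
    have hcop : m.Coprime ℓ := ((Nat.Prime.coprime_iff_not_dvd hℓ).mpr hm).symm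
    exact levelPullback_injOn_torsion_of_finrank h hdeg m hcop x hmx h2
  relation := by
    intro x
    rw [AddMonoidHom.comp_apply, map_add, map_sub, map_nsmul, levelPullback_smul,
      levelPullback_smul, ← hT3 (σ₀ • x), levelPullback_smul]
    exact R.relation (levelPullback h x)

/-- Raw weak reduction data at level `N` are weak reduction data in the sense of `Core`. -/
theorem RawWeakRed.isWeakRed (p : ℕ) (hcomm : HeckeOperatorsCommuteBar N) (hℓ : ℓ.Prime)
    (hℓp : ¬ ℓ ∣ p) (hσ₀ : A.IsFrobeniusAt σ₀ ℓ)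
    {Y : Type*} [AddCommGroup Y] {red : JZero N →+ Y} (R : RawWeakRed N A ℓ σ₀ red) :
    letI := heckeModuleBar N
    ∀ (_ : SMulCommClass (AlgebraicClosure ℚ ≃ₐ[ℚ] AlgebraicClosure ℚ) HeckeAlg (JZero N)),
      IsWeakRed (K := ℚ) p (JZero N) A ℓ hℓ σ₀ red := by
  letI := heckeModuleBar N
  intro _
  refine ⟨hσ₀, R.inertia, ?_, ?_⟩
  · rintro x ⟨n, hn⟩ hx
    exact R.inj_torsion (p ^ n) (fun h => hℓp (hℓ.dvd_of_dvd_pow h)) x hn hx
  · intro x
    have h := R.relation x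
    rw [heckeModuleBar_heckeGen_smul hcomm ⟨ℓ, hℓ⟩ (σ₀ • x)]
    exact h

end Raw

section Self

variable {N : ℕ} [NeZero N]

theorem restrictAlong_levelIncl_self
    (w : Place (AlgebraicClosure ℚ) (modularFunctionFieldBar N)) :
    w.restrictAlong (levelIncl (dvd_refl N)) (levelIncl_isIntegral (dvd_refl N)) = w := by
  apply Place.ext
  ext x
  rw [Fermat.Agent.S29.H571.mem_restrictAlong_iff]
  rfl

theorem ramificationIndexAlong_levelIncl_self
    (w : Place (AlgebraicClosure ℚ) (modularFunctionFieldBar N)) :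
    w.ramificationIndexAlong (levelIncl (dvd_refl N)) = 1 := by
  obtain ⟨π, hπ⟩ := IsDiscreteValuationRing.exists_irreducible w.toValuationSubring
  have h1 := Place.ord_restrictAlong (levelIncl (dvd_refl N))
    (levelIncl_isIntegral (dvd_refl N)) w (π : modularFunctionFieldBar N)
  rw [restrictAlong_levelIncl_self, w.ord_coe_irreducible hπ, mul_one] at h1
  have h2 : levelIncl (dvd_refl N) (π : modularFunctionFieldBar N)
      = (π : modularFunctionFieldBar N) := Subtype.ext rfl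
  rw [h2, w.ord_coe_irreducible hπ] at h1
  exact_mod_cast h1.symm

theorem pullbackAlong_levelIncl_self
    (D : Divisor (AlgebraicClosure ℚ) (modularFunctionFieldBar N)) :
    Divisor.pullbackAlong (levelIncl (dvd_refl N)) (levelIncl_isIntegral (dvd_refl N)) D = D := by
  ext w
  rw [Divisor.pullbackAlong_apply, restrictAlong_levelIncl_self,
    ramificationIndexAlong_levelIncl_self, Nat.cast_one, one_mul]

/-- the level pull-back for `N ∣ N` is the identity -/
theorem levelPullback_self (x : JZero N) : levelPullback (dvd_refl N) x = x := by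
  obtain ⟨D, rfl⟩ := Pic0.mk_surjective x
  show pic0PullbackAlong _ _ _ (Pic0.mk D) = Pic0.mk D
  rw [pic0PullbackAlong_mk]
  refine congrArg Pic0.mk (Subtype.ext ?_)
  rw [coe_degZeroPullbackAlong]
  exact pullbackAlong_levelIncl_self (D : Divisor (AlgebraicClosure ℚ) (modularFunctionFieldBar N))

theorem heckeLevelCompat_self (ℓ : ℕ) [NeZero ℓ] : HeckeLevelCompat N N (dvd_refl N) ℓ := by
  intro x
  rw [levelPullback_self, levelPullback_self]

theorem finrankAlong_levelIncl_self (ℓ : ℕ) :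
    finrankAlong (AlgebraicClosure ℚ) (levelIncl (dvd_refl N)) = ℓ ^ 0 := by
  rw [finrankAlong_levelIncl, IntermediateField.relfinrank_self, pow_zero]

end Self

section Final

/-- **S37 at one place from pieces at an auxiliary level `M`.** -/
theorem exists_specialization_of_transfer (N p : ℕ) [NeZero N]
    (hcomm : HeckeOperatorsCommuteBar N)
    (A : ValuationSubring (AlgebraicClosure ℚ)) (ℓ : ℕ) (hℓ : ℓ.Prime) (hℓp : ¬ ℓ ∣ p)
    (σ₀ : AlgebraicClosure ℚ ≃ₐ[ℚ] AlgebraicClosure ℚ) (hσ₀ : A.IsFrobeniusAt σ₀ ℓ)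
    (M : ℕ) [NeZero M] (h : N ∣ M) (k : ℕ)
    (hdeg : finrankAlong (AlgebraicClosure ℚ) (levelIncl h) = ℓ ^ k)
    (hT3 : haveI : NeZero ℓ := ⟨hℓ.ne_zero⟩; HeckeLevelCompat N M h ℓ)
    (hS18 : InjTorsionModL M ℓ A)
    (D : haveI : NeZero ℓ := ⟨hℓ.ne_zero⟩; PlaceRed M A ℓ σ₀) :
    letI := heckeModuleBar N
    ∀ (_ : SMulCommClass (AlgebraicClosure ℚ ≃ₐ[ℚ] AlgebraicClosure ℚ) HeckeAlg (JZero N)),
      ∃ (J' : Type) (_ : AddCommGroup J') (_ : Module HeckeAlg J') (sp : JZero N →+ J')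
        (F : J' →+ J'),
        IsSpecialization (K := ℚ) p (JZero N) J' A ℓ sp F ∧ SpecialFibreRelation J' ℓ hℓ F := by
  letI := heckeModuleBar N
  haveI : NeZero ℓ := ⟨hℓ.ne_zero⟩
  intro inst
  have R := (rawWeakRed_of_placeRed D hS18).transfer h hℓ hdeg hT3
  exact exists_specialization_of_isWeakRed p A ℓ hℓ σ₀ _ (R.isWeakRed p hcomm hℓ hℓp hσ₀ inst)

/-- **S37 from pieces at auxiliary levels.**  For every prime `ℓ ∤ N`, every `A` over `ℓ` and
every Frobenius element `σ₀` at `A` one may choose a level `M` divisible by `N` with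
`[F_M : F_N]` a power of `ℓ` at which the pieces (S18, `PlaceRed`) and (T3) are available. -/
theorem result_of_pieces_transfer (N p : ℕ) [NeZero N]
    (hPR : ∀ (ℓ : ℕ) (hℓ : ℓ.Prime), ¬ ℓ ∣ N →
      ∀ A : ValuationSubring (AlgebraicClosure ℚ), A.LiesOverPrime ℓ →
        ∀ σ₀ : AlgebraicClosure ℚ ≃ₐ[ℚ] AlgebraicClosure ℚ, A.IsFrobeniusAt σ₀ ℓ →
          haveI : NeZero ℓ := ⟨hℓ.ne_zero⟩
          ∃ (M : ℕ) (_ : NeZero M) (h : N ∣ M) (k : ℕ),
            finrankAlong (AlgebraicClosure ℚ) (levelIncl h) = ℓ ^ k ∧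
            HeckeLevelCompat N M h ℓ ∧ InjTorsionModL M ℓ A ∧ Nonempty (PlaceRed M A ℓ σ₀))
    (hcomm : ModularCurve.HeckeOperatorsCommuteBar N) :
    letI := ModularCurve.heckeModuleBar N
    ∀ (_ : SMulCommClass (AlgebraicClosure ℚ ≃ₐ[ℚ] AlgebraicClosure ℚ) ModularCurve.HeckeAlg
      (ModularCurve.JZero N)),
      ModularCurve.SpecializationExists (K := ℚ) (L := AlgebraicClosure ℚ) N p
        (ModularCurve.JZero N) := by
  letI := ModularCurve.heckeModuleBar N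
  intro inst ℓ hℓ hdvd A hA
  have hℓN : ¬ ℓ ∣ N := fun h => hdvd (Dvd.dvd.mul_right h p)
  have hℓp : ¬ ℓ ∣ p := fun h => hdvd (Dvd.dvd.mul_left h N)
  obtain ⟨σ₀, hσ₀⟩ := exists_isFrobeniusAt ℓ hℓ A hA
  haveI : NeZero ℓ := ⟨hℓ.ne_zero⟩
  obtain ⟨M, hM, h, k, hdeg, hT3, hS18, ⟨D⟩⟩ := hPR ℓ hℓ hℓN A hA σ₀ hσ₀
  exact exists_specialization_of_transfer N p hcomm A ℓ hℓ hℓp σ₀ hσ₀ M h k hdeg hT3 hS18 D inst

/-- The auxiliary level used at `ℓ`: `2N` for `ℓ = 3` and `N` odd, `3N` for `ℓ = 2` and `3 ∤ N`,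
and `N` otherwise. -/
def auxLevel (N ℓ : ℕ) : ℕ :=
  if ℓ = 3 ∧ ¬ 2 ∣ N then N * 2 else if ℓ = 2 ∧ ¬ 3 ∣ N then N * 3 else N

theorem auxLevel_ne_zero (N ℓ : ℕ) [NeZero N] : auxLevel N ℓ ≠ 0 := by
  unfold auxLevel
  split_ifs
  · exact Nat.mul_ne_zero (NeZero.ne N) (by norm_num)
  · exact Nat.mul_ne_zero (NeZero.ne N) (by norm_num)
  · exact NeZero.ne N

instance instNeZeroAuxLevel (N ℓ : ℕ) [NeZero N] : NeZero (auxLevel N ℓ) :=
  ⟨auxLevel_ne_zero N ℓ⟩

theorem dvd_auxLevel (N ℓ : ℕ) : N ∣ auxLevel N ℓ := by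
  unfold auxLevel
  split_ifs
  · exact dvd_mul_right N 2
  · exact dvd_mul_right N 3
  · exact dvd_refl N

theorem not_dvd_auxLevel {N ℓ : ℕ} (hℓ : ℓ.Prime) (hℓN : ¬ ℓ ∣ N) : ¬ ℓ ∣ auxLevel N ℓ := by
  unfold auxLevel
  split_ifs with h1 h2
  · obtain ⟨rfl, -⟩ := h1
    intro h
    rcases (Nat.Prime.dvd_mul hℓ).mp h with h | h
    · exact hℓN h
    · exact absurd h (by norm_num)
  · obtain ⟨rfl, -⟩ := h2
    intro h
    rcases (Nat.Prime.dvd_mul hℓ).mp h with h | h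
    · exact hℓN h
    · exact absurd h (by norm_num)
  · exact hℓN

theorem two_dvd_auxLevel_three (N : ℕ) : 2 ∣ auxLevel N 3 := by
  unfold auxLevel
  by_cases h : 2 ∣ N
  · rw [if_neg (fun h' => h'.2 h), if_neg (fun h' => absurd h'.1 (by norm_num))]
    exact h
  · rw [if_pos ⟨rfl, h⟩]
    exact dvd_mul_left 2 N

theorem three_dvd_auxLevel_two (N : ℕ) : 3 ∣ auxLevel N 2 := by
  unfold auxLevel
  by_cases h : 3 ∣ N
  · rw [if_neg (fun h' => absurd h'.1 (by norm_num)), if_neg (fun h' => h'.2 h)]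
    exact h
  · rw [if_neg (fun h' => absurd h'.1 (by norm_num)), if_pos ⟨rfl, h⟩]
    exact dvd_mul_left 3 N

theorem auxLevel_eq_of_five_le {N ℓ : ℕ} (h : 5 ≤ ℓ) : auxLevel N ℓ = N := by
  unfold auxLevel
  rw [if_neg (fun h' => by omega), if_neg (fun h' => by omega)]

/-- `[F_{auxLevel N ℓ} : F_N]` is a power of `ℓ`. -/
theorem exists_finrankAlong_auxLevel (N ℓ : ℕ) [NeZero N] :
    ∃ k : ℕ, finrankAlong (AlgebraicClosure ℚ) (levelIncl (dvd_auxLevel N ℓ)) = ℓ ^ k := by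
  by_cases h1 : ℓ = 3 ∧ ¬ 2 ∣ N
  · obtain ⟨rfl, h2⟩ := h1
    refine ⟨1, ?_⟩
    have e : auxLevel N 3 = N * 2 := if_pos ⟨rfl, h2⟩
    have key : ∀ (M : ℕ) (hM : M = N * 2) [NeZero M] (hd : N ∣ M),
        finrankAlong (AlgebraicClosure ℚ) (levelIncl hd) = 3 ^ 1 := by
      rintro M rfl _ hd
      exact finrankAlong_levelIncl_mul_prime N 2 Nat.prime_two h2
    exact key _ e _
  by_cases h2 : ℓ = 2 ∧ ¬ 3 ∣ N
  · obtain ⟨rfl, h3⟩ := h2
    refine ⟨2, ?_⟩
    have e : auxLevel N 2 = N * 3 := by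
      unfold auxLevel
      rw [if_neg h1, if_pos ⟨rfl, h3⟩]
    have key : ∀ (M : ℕ) (hM : M = N * 3) [NeZero M] (hd : N ∣ M),
        finrankAlong (AlgebraicClosure ℚ) (levelIncl hd) = 2 ^ 2 := by
      rintro M rfl _ hd
      exact finrankAlong_levelIncl_mul_prime N 3 Nat.prime_three h3
    exact key _ e _
  · refine ⟨0, ?_⟩
    have e : auxLevel N ℓ = N := by
      unfold auxLevel
      rw [if_neg h1, if_neg h2]
    have key : ∀ (M : ℕ) (hM : M = N) [NeZero M] (hd : N ∣ M),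
        finrankAlong (AlgebraicClosure ℚ) (levelIncl hd) = ℓ ^ 0 := by
      rintro M rfl _ hd
      exact finrankAlong_levelIncl_self ℓ
    exact key _ e _

/-- **S37 from pieces at the levels `auxLevel N ℓ`** (`= N` for `ℓ ≥ 5`, divisible by `2` for
`ℓ = 3`, divisible by `3` for `ℓ = 2`).  Hypotheses: (T3) at `(N, auxLevel N ℓ, ℓ)`, S18 and
`PlaceRed` at level `auxLevel N ℓ`. -/
theorem result_of_pieces_six (N p : ℕ) [NeZero N]
    (hT3 : ∀ (ℓ : ℕ) (hℓ : ℓ.Prime), ¬ ℓ ∣ N →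
      haveI : NeZero ℓ := ⟨hℓ.ne_zero⟩
      HeckeLevelCompat N (auxLevel N ℓ) (dvd_auxLevel N ℓ) ℓ)
    (hS18 : ∀ (ℓ : ℕ), ℓ.Prime → ¬ ℓ ∣ N →
      ∀ A : ValuationSubring (AlgebraicClosure ℚ), A.LiesOverPrime ℓ →
        InjTorsionModL (auxLevel N ℓ) ℓ A)
    (hPR : ∀ (ℓ : ℕ) (hℓ : ℓ.Prime), ¬ ℓ ∣ N →
      ∀ A : ValuationSubring (AlgebraicClosure ℚ), A.LiesOverPrime ℓ →
        ∀ σ₀ : AlgebraicClosure ℚ ≃ₐ[ℚ] AlgebraicClosure ℚ, A.IsFrobeniusAt σ₀ ℓ →
          haveI : NeZero ℓ := ⟨hℓ.ne_zero⟩; Nonempty (PlaceRed (auxLevel N ℓ) A ℓ σ₀))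
    (hcomm : ModularCurve.HeckeOperatorsCommuteBar N) :
    letI := ModularCurve.heckeModuleBar N
    ∀ (_ : SMulCommClass (AlgebraicClosure ℚ ≃ₐ[ℚ] AlgebraicClosure ℚ) ModularCurve.HeckeAlg
      (ModularCurve.JZero N)),
      ModularCurve.SpecializationExists (K := ℚ) (L := AlgebraicClosure ℚ) N p
        (ModularCurve.JZero N) := by
  refine result_of_pieces_transfer N p ?_ hcomm
  intro ℓ hℓ hℓN A hA σ₀ hσ₀
  obtain ⟨k, hk⟩ := exists_finrankAlong_auxLevel N ℓ
  exact ⟨auxLevel N ℓ, inferInstance, dvd_auxLevel N ℓ, k, hk, hT3 ℓ hℓ hℓN,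
    hS18 ℓ hℓ hℓN A hA, hPR ℓ hℓ hℓN A hA σ₀ hσ₀⟩

end Final

end Fermat.Agent.S37.H878
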