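import Fermat.Agent.S37.H878.TransferAbs
import Fermat.Agent.Lib.FF398.Hecke
import Fermat.Agent.S28.H988.Degree

/-!
# S37-TRANSFER, modular layer (helper878): the level pull-back `π^* : J₀(N) → J₀(M)`, `N ∣ M`

UNCONDITIONAL (everything from the landed libraries `Lib/FF398` (helper398), `S28/H988`
(helper988), `S29/H571` (helper571)).

* `levelIncl h : ℚ̄(X₀(N)) →ₐ[ℚ̄] ℚ̄(X₀(M))` — the inclusion (`= heckeAlphaBar` if `M = N * q`);
* `levelPullback h : JZero N →+ JZero M` — the Prelude `Pic0.pullbackHom` along it;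
* **(T2)** `levelPullback_smul` : `π^* (σ • x) = σ • π^* x` for `σ ∈ Gal(ℚ̄/ℚ)`;
* **(T1)** `levelPullback_nsmul_finrank` : `π^* x = 0 → [F_M : F_N] • x = 0`;
  `finrankAlong_levelIncl_mul_prime` : `[F_{Nq} : F_N] = q + 1` for a prime `q ∤ N`;
  `levelPullback_injOn_torsion` : if `q + 1 = ℓ ^ k` then `π^*` is injective on torsion of order
  prime to `ℓ` (`levelPullback_two_injOn_torsion` : `q = 2, ℓ = 3`;
  `levelPullback_three_injOn_torsion` : `q = 3, ℓ = 2`).
-/

set_option autoImplicit false
set_option linter.style.haveILetI false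
set_option linter.unusedSectionVars false

noncomputable section

namespace Fermat.Agent.S37.H878

open AlgebraicCurve ModularCurve IntermediateField HahnSeries
open Fermat.Agent.S24 (FF jF Kbar)

section Generic

variable {K L : Type*} [Field K] [Field L] [Algebra K L]

/-- the degree along an inclusion of intermediate fields is the relative degree -/
theorem finrankAlong_inclusion {E F : IntermediateField K L} (h : E ≤ F) :
    finrankAlong K (IntermediateField.inclusion h) = E.relfinrank F := by
  rw [IntermediateField.relfinrank_eq_finrank_of_le h]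
  letI := algebraAlong (IntermediateField.inclusion h)
  show Module.finrank E F = _
  let e : F ≃ₗ[E] (IntermediateField.extendScalars h) :=
    { toFun := fun x => ⟨(x : L), x.2⟩
      invFun := fun x => ⟨(x : L), x.2⟩
      left_inv := fun _ => rfl
      right_inv := fun _ => rfl
      map_add' := fun _ _ => rfl
      map_smul' := fun _ _ => rfl }
  exact e.finrank_eq

end Generic

section GenericLaurent

variable (L : Type*) [Field L] [Algebra ℚ L]

theorem laurentBaseChange_le_of_le
    {F₀ F₁ : IntermediateField ℚ (LaurentSeries ℚ)} (h : F₀ ≤ F₁) :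
    laurentBaseChange L F₀ ≤ laurentBaseChange L F₁ := by
  rw [laurentBaseChange, IntermediateField.adjoin_le_iff]
  rintro _ ⟨y, hy, rfl⟩
  exact coeffEmb_mem_laurentBaseChange L (h hy)

variable {L}

/-- The arithmetic Galois actions on two base-changed fields are intertwined by the inclusion. -/
theorem inclusion_intertwines {F₀ F₁ : IntermediateField ℚ (LaurentSeries ℚ)} (h : F₀ ≤ F₁)
    (σ : L ≃ₐ[ℚ] L) :
    SemilinearAut.IntertwinesAlong
      ((IntermediateField.inclusion (laurentBaseChange_le_of_le L h) :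
          laurentBaseChange L F₀ →ₐ[L] laurentBaseChange L F₁) :
        laurentBaseChange L F₀ →+* laurentBaseChange L F₁)
      (arithmeticGalois F₀ σ) (arithmeticGalois F₁ σ) := by
  intro x
  apply Subtype.ext
  show ((arithmeticGalois F₁ σ • (IntermediateField.inclusion (laurentBaseChange_le_of_le L h) x) :
      laurentBaseChange L F₁) : LaurentSeries L)
    = ((IntermediateField.inclusion (laurentBaseChange_le_of_le L h)
        (arithmeticGalois F₀ σ • x) : laurentBaseChange L F₁) : LaurentSeries L)
  rw [coe_arithmeticGalois_smul, IntermediateField.coe_inclusion, IntermediateField.coe_inclusion,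
    coe_arithmeticGalois_smul]

end GenericLaurent

section Incl

variable {N M : ℕ} [NeZero N] [NeZero M]

theorem modularFunctionFieldBar_le_of_dvd (h : N ∣ M) :
    modularFunctionFieldBar N ≤ modularFunctionFieldBar M :=
  laurentBaseChange_le_of_le _ (full_degeneracy_le h)

/-- The inclusion `ℚ̄(X₀(N)) ⊂ ℚ̄(X₀(M))` for `N ∣ M`. -/
def levelIncl (h : N ∣ M) :
    modularFunctionFieldBar N →ₐ[AlgebraicClosure ℚ] modularFunctionFieldBar M :=
  IntermediateField.inclusion (modularFunctionFieldBar_le_of_dvd h)

@[simp]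
theorem coe_levelIncl (h : N ∣ M) (x : modularFunctionFieldBar N) :
    ((levelIncl h x : modularFunctionFieldBar M) : LaurentSeries (AlgebraicClosure ℚ))
      = (x : LaurentSeries (AlgebraicClosure ℚ)) :=
  IntermediateField.coe_inclusion _ x

omit [NeZero M] in
theorem levelIncl_eq_heckeAlphaBar (q : ℕ) [NeZero q] :
    levelIncl (dvd_mul_right N q) = heckeAlphaBar (AlgebraicClosure ℚ) N q :=
  rfl

/-- The arithmetic Galois actions at levels `N` and `M` are intertwined by the inclusion. -/
theorem levelIncl_intertwines (h : N ∣ M)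
    (σ : AlgebraicClosure ℚ ≃ₐ[ℚ] AlgebraicClosure ℚ) :
    SemilinearAut.IntertwinesAlong
      ((levelIncl h : modularFunctionFieldBar N →ₐ[AlgebraicClosure ℚ] modularFunctionFieldBar M) :
        modularFunctionFieldBar N →+* modularFunctionFieldBar M)
      (arithmeticGalois (modularFunctionFieldFull N) σ)
      (arithmeticGalois (modularFunctionFieldFull M) σ) :=
  inclusion_intertwines (full_degeneracy_le h) σ

theorem levelIncl_finiteAlong (h : N ∣ M) : FiniteAlong (AlgebraicClosure ℚ) (levelIncl h) :=
  Fermat.Agent.Lib.FF398.finiteAlong_of_functionField (levelIncl h) (jF N)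
    (Fermat.Agent.Lib.FF398.transcendental_jF N) (jF M)
    (Fermat.Agent.Lib.FF398.transcendental_jF M)

theorem levelIncl_isIntegral (h : N ∣ M) : (levelIncl h).toRingHom.IsIntegral := by
  letI := algebraAlong (levelIncl h)
  haveI : Module.Finite (FF N) (FF M) := levelIncl_finiteAlong h
  exact fun x => Algebra.IsIntegral.isIntegral (R := FF N) x

theorem levelIncl_sumRamInertiaAlong (h : N ∣ M) :
    SumRamInertiaAlong (AlgebraicClosure ℚ) (levelIncl h) (levelIncl_isIntegral h) := by
  letI := algebraAlong (levelIncl h)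
  haveI := isScalarTower_along (levelIncl h)
  haveI : Module.Finite (FF N) (FF M) := levelIncl_finiteAlong h
  haveI : CharZero (FF N) :=
    charZero_of_injective_algebraMap (algebraMap (AlgebraicClosure ℚ) (FF N)).injective
  exact Fermat.Agent.Lib.FF398.sumRamificationInertia (K := AlgebraicClosure ℚ) (F := FF N)
    (F' := FF M) (Fermat.Agent.Lib.FF398.deg_eq_one_FF M)

theorem levelIncl_fundamentalIdentityAlong (h : N ∣ M) :
    FundamentalIdentityAlong (AlgebraicClosure ℚ) (levelIncl h) (levelIncl_isIntegral h) :=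
  fundamentalIdentityAlong_of_sumRamInertiaAlong _ _ (levelIncl_sumRamInertiaAlong h)

theorem levelIncl_normFormulaAlong (h : N ∣ M) :
    NormFormulaAlong (AlgebraicClosure ℚ) (levelIncl h) (levelIncl_finiteAlong h) := by
  letI := algebraAlong (levelIncl h)
  haveI := isScalarTower_along (levelIncl h)
  haveI : Module.Finite (FF N) (FF M) := levelIncl_finiteAlong h
  haveI : CharZero (FF N) :=
    charZero_of_injective_algebraMap (algebraMap (AlgebraicClosure ℚ) (FF N)).injective
  exact Fermat.Agent.Lib.FF398.pushforwardNormFormula (K := AlgebraicClosure ℚ) (F := FF N)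
    (F' := FF M) (Fermat.Agent.Lib.FF398.deg_eq_one_FF M)

/-- `[F_M : F_N]` is the relative degree of the two subfields of `ℚ̄((q))`. -/
theorem finrankAlong_levelIncl (h : N ∣ M) :
    finrankAlong (AlgebraicClosure ℚ) (levelIncl h)
      = (modularFunctionFieldBar N).relfinrank (modularFunctionFieldBar M) :=
  finrankAlong_inclusion (modularFunctionFieldBar_le_of_dvd h)

/-- `[F_{Nq} : F_N] = q + 1` for a prime `q ∤ N`. -/
theorem finrankAlong_levelIncl_mul_prime (N q : ℕ) [NeZero N] [NeZero (N * q)] (hq : q.Prime)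
    (hqN : ¬ q ∣ N) :
    finrankAlong (AlgebraicClosure ℚ) (levelIncl (N := N) (M := N * q) (dvd_mul_right N q))
      = q + 1 := by
  rw [finrankAlong_levelIncl, Fermat.Agent.S28.H988.relfinrank_bar_mul_prime N q (NeZero.ne N) hq,
    if_neg hqN]

end Incl

section Pullback

variable {N M : ℕ} [NeZero N] [NeZero M]

/-- **The level pull-back** `π^* : J₀(N) → J₀(M)` for `N ∣ M`. -/
def levelPullback (h : N ∣ M) : JZero N →+ JZero M :=
  pic0PullbackAlong (levelIncl h) (levelIncl_isIntegral h) (levelIncl_fundamentalIdentityAlong h)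

/-- **(T2)** the level pull-back is `Gal(ℚ̄/ℚ)`-equivariant. -/
theorem levelPullback_smul (h : N ∣ M) (σ : AlgebraicClosure ℚ ≃ₐ[ℚ] AlgebraicClosure ℚ)
    (x : JZero N) : levelPullback h (σ • x) = σ • levelPullback h x := by
  rw [galois_smul_pic0_def, galois_smul_pic0_def]
  exact pic0PullbackAlong_smul (levelIncl h) (levelIncl_isIntegral h)
    (levelIncl_fundamentalIdentityAlong h) (levelIncl_intertwines h σ) x

/-- **(T1)** a class killed by the level pull-back is killed by `[F_M : F_N]`. -/
theorem levelPullback_nsmul_finrank (h : N ∣ M) (x : JZero N) (hx : levelPullback h x = 0) :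
    finrankAlong (AlgebraicClosure ℚ) (levelIncl h) • x = 0 :=
  finrank_nsmul_eq_zero_of_pic0PullbackAlong_eq_zero (levelIncl h) (levelIncl_isIntegral h)
    (levelIncl_sumRamInertiaAlong h) (levelIncl_fundamentalIdentityAlong h)
    (levelIncl_finiteAlong h) (levelIncl_normFormulaAlong h) x hx

/-- **(T1)** if `[F_M : F_N] = ℓ ^ k`, the level pull-back is injective on torsion of order prime
to `ℓ`. -/
theorem levelPullback_injOn_torsion_of_finrank (h : N ∣ M) {ℓ k : ℕ}
    (hdeg : finrankAlong (AlgebraicClosure ℚ) (levelIncl h) = ℓ ^ k)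
    (m : ℕ) (hm : m.Coprime ℓ) (x : JZero N) (hmx : m • x = 0)
    (hx : levelPullback h x = 0) : x = 0 :=
  eq_zero_of_pic0PullbackAlong_eq_zero (levelIncl h) (levelIncl_isIntegral h)
    (levelIncl_sumRamInertiaAlong h) (levelIncl_fundamentalIdentityAlong h)
    (levelIncl_finiteAlong h) (levelIncl_normFormulaAlong h) hdeg m hm x hmx hx

/-- **(T1)** for a prime `q ∤ N` with `q + 1 = ℓ ^ k`, the pull-back `J₀(N) → J₀(Nq)` is
injective on torsion of order prime to `ℓ`. -/
theorem levelPullback_injOn_torsion (N q : ℕ) [NeZero N] [NeZero (N * q)] (hq : q.Prime)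
    (hqN : ¬ q ∣ N) {ℓ k : ℕ} (hqℓ : q + 1 = ℓ ^ k)
    (m : ℕ) (hm : m.Coprime ℓ) (x : JZero N) (hmx : m • x = 0)
    (hx : levelPullback (N := N) (M := N * q) (dvd_mul_right N q) x = 0) : x = 0 :=
  levelPullback_injOn_torsion_of_finrank _
    ((finrankAlong_levelIncl_mul_prime N q hq hqN).trans hqℓ) m hm x hmx hx

/-- `ℓ = 3`, auxiliary level `2N` (`N` odd): `[F_{2N} : F_N] = 3`. -/
theorem levelPullback_two_injOn_torsion (N : ℕ) [NeZero N] [NeZero (N * 2)] (hN : ¬ 2 ∣ N)
    (m : ℕ) (hm : m.Coprime 3) (x : JZero N) (hmx : m • x = 0)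
    (hx : levelPullback (N := N) (M := N * 2) (dvd_mul_right N 2) x = 0) : x = 0 :=
  levelPullback_injOn_torsion N 2 Nat.prime_two hN (ℓ := 3) (k := 1) (by norm_num) m hm x hmx hx

/-- `ℓ = 2`, auxiliary level `3N` (`3 ∤ N`): `[F_{3N} : F_N] = 4`. -/
theorem levelPullback_three_injOn_torsion (N : ℕ) [NeZero N] [NeZero (N * 3)] (hN : ¬ 3 ∣ N)
    (m : ℕ) (hm : m.Coprime 2) (x : JZero N) (hmx : m • x = 0)
    (hx : levelPullback (N := N) (M := N * 3) (dvd_mul_right N 3) x = 0) : x = 0 :=
  levelPullback_injOn_torsion N 3 Nat.prime_three hN (ℓ := 2) (k := 2) (by norm_num) m hm x hmx hx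

end Pullback

end Fermat.Agent.S37.H878
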